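import Fermat.Agent.S55.LOC.Amb.Frob

/-!
# S55-LOC (AMB layer) : the unramified characters `nrF F n : G → ZMod n`
-/

namespace Fermat.Agent.S55.LOC

variable {q : ℕ} [Fact q.Prime] (F : LF q) [FiniteDimensional ℚ_[q] F]

/-- on the Teichmüller set `{ξ | ξ^(Q^n) = ξ}` the exponent only matters modulo `n`. -/
theorem Nr_pow_add_mul {Q n : ℕ} {ξ : Om q} (hξ : ξ ^ (Q ^ n) = ξ) (a b : ℕ) :
    ξ ^ (Q ^ (a + n * b)) = ξ ^ (Q ^ a) := by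
  induction b with
  | zero => rw [mul_zero, add_zero]
  | succ b ih =>
    have e : a + n * (b + 1) = n + (a + n * b) := by ring
    rw [e, pow_add, pow_mul, hξ, ih]

theorem Nr_pow_mod {Q n : ℕ} {ξ : Om q} (hξ : ξ ^ (Q ^ n) = ξ) (m : ℕ) :
    ξ ^ (Q ^ (m % n)) = ξ ^ (Q ^ m) := by
  conv_rhs => rw [← Nat.mod_add_div m n]
  exact (Nr_pow_add_mul hξ _ _).symm

theorem Nr_pow_mul {Q n : ℕ} {ξ : Om q} (hξ : ξ ^ (Q ^ n) = ξ) (b : ℕ) :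
    ξ ^ (Q ^ (n * b)) = ξ := by
  have h := Nr_pow_add_mul hξ 0 b
  rwa [zero_add, pow_zero, pow_one] at h

theorem nrF_eq {n : ℕ} (hn : n ≠ 0) {g : Gq q} {m : ℕ}
    (h : ∀ ξ : Om q, ξ ^ (QF F ^ n) = ξ → g ξ = ξ ^ (QF F ^ m)) : nrF F n g = (m : ZMod n) := by
  have hex : ∃ m : ℕ, ∀ ξ : Om q, ξ ^ (QF F ^ n) = ξ → g ξ = ξ ^ (QF F ^ m) := ⟨m, h⟩
  unfold nrF
  rw [dif_pos hex, ZMod.natCast_eq_natCast_iff]
  exact frob_pow_unique F hn fun ξ hξ => (hex.choose_spec ξ hξ).symm.trans (h ξ hξ)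

theorem nrF_spec {n : ℕ} (hn : n ≠ 0) {g : Gq q} (hg : g ∈ F.fixingSubgroup) (ξ : Om q)
    (hξ : ξ ^ (QF F ^ n) = ξ) : g ξ = ξ ^ (QF F ^ (nrF F n g).val) := by
  obtain ⟨m, hm⟩ := exists_frob_pow F hg n hn
  rw [nrF_eq F hn hm, ZMod.val_natCast, Nr_pow_mod hξ]
  exact hm ξ hξ

theorem nrF_mul {n : ℕ} (hn : n ≠ 0) {g h : Gq q} (hg : g ∈ F.fixingSubgroup)
    (hh : h ∈ F.fixingSubgroup) : nrF F n (g * h) = nrF F n g + nrF F n h := by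
  obtain ⟨a, ha⟩ := exists_frob_pow F hg n hn
  obtain ⟨b, hb⟩ := exists_frob_pow F hh n hn
  have hab : ∀ ξ : Om q, ξ ^ (QF F ^ n) = ξ → (g * h) ξ = ξ ^ (QF F ^ (a + b)) := by
    intro ξ hξ
    rw [AlgEquiv.mul_apply, hb ξ hξ, map_pow, ha ξ hξ, ← pow_mul, ← pow_add]
  rw [nrF_eq F hn hab, nrF_eq F hn ha, nrF_eq F hn hb, Nat.cast_add]

/-- `nrF F n` is right-invariant under `G_E`, `E = ℚ_q(ζ_{Q^n-1})`. -/
theorem nrF_smooth (n : ℕ) (hn : n ≠ 0) : ∃ E : LF q, FiniteDimensional ℚ_[q] E ∧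
    ∀ g : Gq q, ∀ s ∈ E.fixingSubgroup, nrF F n (g * s) = nrF F n g := by
  have hQ : 2 ≤ QF F := one_lt_QF F
  have hN : QF F ^ n - 1 ≠ 0 := Frob_pow_sub_one_ne_zero hQ hn
  obtain ⟨ζ, hζ⟩ := exists_primitiveRoot (q := q) (QF F ^ n - 1) hN
  have hint : IsIntegral ℚ_[q] ζ := Algebra.IsIntegral.isIntegral ζ
  refine ⟨IntermediateField.adjoin ℚ_[q] {ζ}, IntermediateField.adjoin.finiteDimensional hint,
    fun g s hs => ?_⟩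
  have hζE : ζ ∈ IntermediateField.adjoin ℚ_[q] {ζ} :=
    IntermediateField.mem_adjoin_simple_self ℚ_[q] ζ
  have hmem : ∀ ξ : Om q, ξ ^ (QF F ^ n) = ξ → ξ ∈ IntermediateField.adjoin ℚ_[q] {ζ} := by
    intro ξ hξ
    by_cases h0 : ξ = 0
    · rw [h0]; exact zero_mem _
    have h1 : 1 < QF F ^ n := Nat.one_lt_pow hn (by omega)
    have h2 : QF F ^ n = (QF F ^ n - 1) + 1 := by omega
    have h3 : ξ ^ (QF F ^ n - 1) = 1 := by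
      rw [h2, pow_succ] at hξ
      exact mul_right_cancel₀ h0 (hξ.trans (one_mul ξ).symm)
    have : NeZero (QF F ^ n - 1) := ⟨hN⟩
    obtain ⟨i, -, rfl⟩ := hζ.eq_pow_of_pow_eq_one h3
    exact pow_mem hζE i
  have hfix : ∀ ξ : Om q, ξ ^ (QF F ^ n) = ξ → (g * s) ξ = g ξ := by
    intro ξ hξ
    rw [AlgEquiv.mul_apply, (IntermediateField.mem_fixingSubgroup_iff _ s).1 hs ξ (hmem ξ hξ)]
  by_cases hex : ∃ m : ℕ, ∀ ξ : Om q, ξ ^ (QF F ^ n) = ξ → g ξ = ξ ^ (QF F ^ m)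
  · obtain ⟨m, hm⟩ := hex
    rw [nrF_eq F hn hm, nrF_eq F hn fun ξ hξ => (hfix ξ hξ).trans (hm ξ hξ)]
  · have hex' : ¬ ∃ m : ℕ, ∀ ξ : Om q, ξ ^ (QF F ^ n) = ξ → (g * s) ξ = ξ ^ (QF F ^ m) := by
      rintro ⟨m, hm⟩
      exact hex ⟨m, fun ξ hξ => (hfix ξ hξ).symm.trans (hm ξ hξ)⟩
    unfold nrF
    rw [dif_neg hex, dif_neg hex']

theorem nrF_surj (n : ℕ) (hn : n ≠ 0) : ∃ σ ∈ F.fixingSubgroup, nrF F n σ = 1 := by
  obtain ⟨σ, hσ, h⟩ := exists_frob F n hn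
  refine ⟨σ, hσ, ?_⟩
  have h1 : ∀ ξ : Om q, ξ ^ (QF F ^ n) = ξ → σ ξ = ξ ^ (QF F ^ 1) := by
    intro ξ hξ
    rw [pow_one]
    exact h ξ hξ
  rw [nrF_eq F hn h1, Nat.cast_one]

theorem nrF_cast (n m : ℕ) (hn : n ≠ 0) (hm : m ≠ 0) {g : Gq q} (hg : g ∈ F.fixingSubgroup) :
    ZMod.castHom (Dvd.intro m rfl : n ∣ n * m) (ZMod n) (nrF F (n * m) g) = nrF F n g := by
  obtain ⟨k, hk⟩ := exists_frob_pow F hg (n * m) (mul_ne_zero hn hm)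
  have hk' : ∀ ξ : Om q, ξ ^ (QF F ^ n) = ξ → g ξ = ξ ^ (QF F ^ k) :=
    fun ξ hξ => hk ξ (Nr_pow_mul hξ m)
  rw [nrF_eq F (mul_ne_zero hn hm) hk, nrF_eq F hn hk', map_natCast]

/-- restriction to a finite extension: `nr_F = f(E/F) · nr_E` on `G_E`. -/
theorem nrF_of_le (E : LF q) [FiniteDimensional ℚ_[q] E] (h : F ≤ E) (f : ℕ)
    (hf : resDeg E = f * resDeg F) (n : ℕ) (hn : n ≠ 0) {g : Gq q} (hg : g ∈ E.fixingSubgroup) :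
    nrF F n g = (f : ZMod n) * nrF E n g := by
  have hQ : QF E = QF F ^ f := by
    rw [QF_eq E, QF_eq F, hf, ← pow_mul, mul_comm]
  obtain ⟨k, hk⟩ := exists_frob_pow E hg n hn
  have hk' : ∀ ξ : Om q, ξ ^ (QF F ^ n) = ξ → g ξ = ξ ^ (QF F ^ (f * k)) := by
    intro ξ hξ
    have h1 : ξ ^ (QF E ^ n) = ξ := by
      rw [hQ, ← pow_mul, mul_comm f n]
      exact Nr_pow_mul hξ f
    rw [hk ξ h1, hQ, ← pow_mul]
  rw [nrF_eq F hn hk', nrF_eq E hn hk, Nat.cast_mul]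

end Fermat.Agent.S55.LOC
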