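import Fermat.Agent.S55.LOC.Amb.PowIdx
import Fermat.Agent.S55.LOC.Amb.Nr
import Fermat.Agent.S55.LOC.Formal.NormNr

/-!
# S55-LOC (AMB layer) : **the export** : the local formation on `Gal(Ω/ℚ_q)`, `A = Ωˣ`
-/

namespace Fermat.Agent.S55.LOC

open Fermat.Agent.S55.LDB Fermat.Agent.S55.HQ

variable {q : ℕ} [Fact q.Prime]

/-- `ord U` := normalised valuation of `F_U`. -/
noncomputable def ordU (U : Subgroup (Gq q)) (a : (Om q)ˣ) : ℤ := ordF (fixF U) (a : Om q)

/-- `nr U n` := unramified character of `F_U`. -/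
noncomputable def nrU (U : Subgroup (Gq q)) (n : ℕ) (g : Gq q) : ZMod n := nrF (fixF U) n g

theorem ordU_mul (U : Subgroup (Gq q)) (hU : IsOpenSub q U) (a b : (Om q)ˣ) (ha : Fix U a)
    (hb : Fix U b) : ordU U (a * b) = ordU U a + ordU U b := by
  have := finiteDimensional_fixF hU
  unfold ordU
  rw [Units.val_mul]
  exact ordF_mul (fix_iff.mp ha) (fix_iff.mp hb) a.ne_zero b.ne_zero

theorem ordU_exists_unif (U : Subgroup (Gq q)) (hU : IsOpenSub q U) :
    ∃ π : (Om q)ˣ, Fix U π ∧ ordU U π = 1 := by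
  have := finiteDimensional_fixF hU
  obtain ⟨π, hπ⟩ := exists_isUnif (fixF U)
  refine ⟨Units.mk0 π hπ.2.1, fix_iff.mpr hπ.1, ?_⟩
  exact ordF_unif hπ

theorem ordU_smul (U : Subgroup (Gq q)) (g : Gq q) (a : (Om q)ˣ) :
    ordU U (g • a) = ordU U a := by
  exact ordF_gal (fixF U) g (a : Om q)

theorem nrU_char (U : Subgroup (Gq q)) (hU : IsOpenSub q U) (n : ℕ) (hn : n ≠ 0) :
    IsChar (locOpens q) U (nrU U n) := by
  have := finiteDimensional_fixF hU
  have hfix : ∀ g ∈ U, g ∈ (fixF U).fixingSubgroup := fun g hg => by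
    rw [fixingSubgroup_fixF hU]; exact hg
  constructor
  · intro g hg h hh
    exact nrF_mul (fixF U) hn (hfix g hg) (hfix h hh)
  · obtain ⟨E, hE, hs⟩ := nrF_smooth (fixF U) n hn
    refine ⟨E.fixingSubgroup ⊓ U, IsOpenSub.inf (isOpenSub_fixingSubgroup E) hU, inf_le_right, ?_⟩
    intro g _ s hs'
    exact hs g s hs'.1

theorem nrU_surj (U : Subgroup (Gq q)) (hU : IsOpenSub q U) (n : ℕ) (hn : n ≠ 0) :
    ∃ σ ∈ U, nrU U n σ = 1 := by
  have := finiteDimensional_fixF hU
  obtain ⟨σ, hσ, h1⟩ := nrF_surj (fixF U) n hn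
  rw [fixingSubgroup_fixF hU] at hσ
  exact ⟨σ, hσ, h1⟩

theorem nrU_cast (U : Subgroup (Gq q)) (hU : IsOpenSub q U) (n m : ℕ) (hn : n ≠ 0) (hm : m ≠ 0)
    (g : Gq q) (hg : g ∈ U) :
    ZMod.castHom (Dvd.intro m rfl : n ∣ n * m) (ZMod n) (nrU U (n * m) g) = nrU U n g := by
  have := finiteDimensional_fixF hU
  exact nrF_cast (fixF U) n m hn hm (by rw [fixingSubgroup_fixF hU]; exact hg)

theorem ef_U (U V : Subgroup (Gq q)) (hU : IsOpenSub q U) (hV : IsOpenSub q V) (h : V ≤ U) :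
    ∃ e f : ℕ, e * f = V.relIndex U ∧
    (∀ a : (Om q)ˣ, Fix U a → ordU V a = e * ordU U a) ∧
    (∀ n, n ≠ 0 → ∀ g ∈ V, nrU U n g = f * nrU V n g) := by
  have := finiteDimensional_fixF hU
  have := finiteDimensional_fixF hV
  have hFE : fixF U ≤ fixF V := fixF_anti h
  obtain ⟨e, he1, he2⟩ := ordF_of_le (fixF U) (fixF V) hFE
  obtain ⟨f, hf⟩ := resDeg_dvd_of_le (fixF U) (fixF V) hFE
  refine ⟨e, f, ?_, ?_, ?_⟩
  · have h1 := ramIdx_mul_resDeg (fixF V)
    have h2 := ramIdx_mul_resDeg (fixF U)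
    rw [finrank_fixF hV] at h1
    rw [finrank_fixF hU] at h2
    have h3 : V.relIndex U * U.index = V.index := Subgroup.relIndex_mul_index h
    have h4 : U.index ≠ 0 := (IsOpenSub.finiteIndex hU).index_ne_zero
    apply Nat.eq_of_mul_eq_mul_right (Nat.pos_of_ne_zero h4)
    rw [h3, ← h1, ← h2, he1, hf]
    ring
  · intro a ha
    exact he2 a (fix_iff.mp ha) a.ne_zero
  · intro n hn g hg
    exact nrF_of_le (fixF U) (fixF V) hFE f (by rw [hf, mul_comm]) n hn
      (by rw [fixingSubgroup_fixF hV]; exact hg)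

/-- The pre-local formation, given the field formation (provided by LDB). -/
noncomputable def preLocalFormation (p : ℕ) [Fact p.Prime]
    (FF : FieldFormation p (locOpens q) (Om q)ˣ) : PreLocalFormation p (locOpens q) (Om q)ˣ where
  toFieldFormation := FF
  ord := ordU
  ord_mul := ordU_mul
  exists_unif := ordU_exists_unif
  ord_smul := fun U _ => ordU_smul U
  nr := nrU
  nr_char := nrU_char
  nr_surj := nrU_surj
  nr_cast := nrU_cast
  ef := ef_U
  idx_ne := fun U hU ψ hψ hσ =>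
    (idx_of_powIdx p FF (if p = q then p else 1)
      (by split_ifs <;> simp [(Fact.out : p.Prime).ne_zero])
      (fun U hU => powIdx_fixSub p Fact.out hU) U hU ψ hψ hσ).1
  idx_gen := fun U hU ψ hψ hσ =>
    (idx_of_powIdx p FF (if p = q then p else 1)
      (by split_ifs <;> simp [(Fact.out : p.Prime).ne_zero])
      (fun U hU => powIdx_fixSub p Fact.out hU) U hU ψ hψ hσ).2

/-- **EXPORT of S55-LOC.** -/
noncomputable def localFormation (p : ℕ) [Fact p.Prime]
    (FF : FieldFormation p (locOpens q) (Om q)ˣ) : LocalFormation p (locOpens q) (Om q)ˣ :=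
  (preLocalFormation p FF).toLocalFormation

end Fermat.Agent.S55.LOC
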