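import Fermat.Agent.S55.LOC.Nrm.Conc

/-!
# S55-LOC (AMB layer) : definitions in the ambient model `Ω = PadicAlgCl q`

Local fields = finite-dimensional `F : IntermediateField ℚ_[q] Ω`, with the norm of `Ω`.
-/

namespace Fermat.Agent.S55.LOC

open scoped NormedField Valued

variable (q : ℕ) [Fact q.Prime]

/-- `Ω = \bar ℚ_q`. -/
abbrev Om := PadicAlgCl q

/-- `G = Gal(Ω/ℚ_q)`. -/
abbrev Gq := PadicAlgCl q ≃ₐ[ℚ_[q]] PadicAlgCl q

/-- subfields of `Ω`. -/
abbrev LF := IntermediateField ℚ_[q] (PadicAlgCl q)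

variable {q}

theorem norm_gal (g : Gq q) (x : Om q) : ‖g x‖ = ‖x‖ := by
  rw [← PadicAlgCl.spectralNorm_eq, ← PadicAlgCl.spectralNorm_eq]
  exact (spectralNorm_eq_of_equiv g x).symm

instance properSpace_LF (F : LF q) [FiniteDimensional ℚ_[q] F] : ProperSpace F :=
  FiniteDimensional.proper ℚ_[q] F

/-- `π` is a uniformiser of `F`. -/
def IsUnif (F : LF q) (π : Om q) : Prop :=
  π ∈ F ∧ π ≠ 0 ∧ ‖π‖ < 1 ∧ ∀ x ∈ F, ‖x‖ < 1 → ‖x‖ ≤ ‖π‖

open Classical in
/-- the normalised valuation of `F` (meaningful on `Fˣ`; depends only on `‖a‖`). -/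
noncomputable def ordF (F : LF q) (a : Om q) : ℤ :=
  if h : ∃ m : ℤ, ∃ π, IsUnif F π ∧ ‖a‖ = ‖π‖ ^ m then h.choose else 0

/-- the cardinality of the residue field of `F`. -/
noncomputable def QF (F : LF q) : ℕ := resCard F

/-- absolute ramification index. -/
noncomputable def ramIdx (F : LF q) : ℕ := (ordF F (q : Om q)).toNat

/-- absolute residue degree. -/
noncomputable def resDeg (F : LF q) : ℕ := Nat.log q (QF F)

open Classical in
/-- the unramified character of `G_F` with values in `ZMod n`: `g ξ = ξ^(Q^(nrF g))` on the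
Teichmüller set `{ξ | ξ^(Q^n) = ξ}`. -/
noncomputable def nrF (F : LF q) (n : ℕ) (g : Gq q) : ZMod n :=
  if h : ∃ m : ℕ, ∀ ξ : Om q, ξ ^ (QF F ^ n) = ξ → g ξ = ξ ^ (QF F ^ m) then (h.choose : ZMod n)
  else 0

end Fermat.Agent.S55.LOC
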