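import Fermat.Agent.S55.LOC.Amb.Basic

/-!
# S55-LOC (AMB layer) : roots of unity of order prime to `q` are distinct modulo `𝔪_Ω`
-/

namespace Fermat.Agent.S55.LOC

variable {q : ℕ} [Fact q.Prime]

theorem norm_eq_one_of_pow_eq_one {m : ℕ} (hm : m ≠ 0) {ξ : Om q} (h : ξ ^ m = 1) : ‖ξ‖ = 1 := by
  have h1 : ‖ξ‖ ^ m = 1 := by rw [← norm_pow, h, norm_one]
  exact (pow_eq_one_iff_of_nonneg (norm_nonneg ξ) hm).1 h1

theorem Roots_norm_add_le_max (x y : Om q) : ‖x + y‖ ≤ max ‖x‖ ‖y‖ :=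
  PadicAlgCl.isNonarchimedean q x y

theorem Roots_norm_pow_sub_one_le {η : Om q} (hη : ‖η‖ ≤ 1) (m : ℕ) : ‖η ^ m - 1‖ ≤ ‖η - 1‖ := by
  induction m with
  | zero => simp
  | succ m ih =>
    have h1 : η ^ (m + 1) - 1 = η * (η ^ m - 1) + (η - 1) := by ring
    rw [h1]
    refine (Roots_norm_add_le_max _ _).trans (max_le ?_ le_rfl)
    rw [norm_mul]
    calc ‖η‖ * ‖η ^ m - 1‖ ≤ 1 * ‖η ^ m - 1‖ :=
          mul_le_mul_of_nonneg_right hη (norm_nonneg _)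
      _ = ‖η ^ m - 1‖ := one_mul _
      _ ≤ ‖η - 1‖ := ih

theorem Roots_norm_geom_sum_sub_le {η : Om q} (hη : ‖η‖ ≤ 1) (m : ℕ) :
    ‖(∑ i ∈ Finset.range m, η ^ i) - (m : Om q)‖ ≤ ‖η - 1‖ := by
  induction m with
  | zero => simp
  | succ m ih =>
    have h1 : (∑ i ∈ Finset.range (m + 1), η ^ i) - ((m + 1 : ℕ) : Om q) =
        ((∑ i ∈ Finset.range m, η ^ i) - (m : Om q)) + (η ^ m - 1) := by
      rw [Finset.sum_range_succ]; push_cast; ring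
    rw [h1]
    exact (Roots_norm_add_le_max _ _).trans (max_le ih (Roots_norm_pow_sub_one_le hη m))

theorem Roots_norm_natCast_eq_one {m : ℕ} (hm : ¬ q ∣ m) : ‖(m : Om q)‖ = 1 := by
  have h1 : (m : Om q) = algebraMap ℚ_[q] (Om q) (m : ℚ_[q]) := (map_natCast _ m).symm
  rw [h1, norm_algebraMap', Padic.norm_natCast_eq_one_iff]
  exact (Nat.Prime.coprime_iff_not_dvd Fact.out).2 hm

theorem Roots_eq_one_of_norm_sub_lt_one {m : ℕ} (hm : ¬ q ∣ m) {η : Om q} (h : η ^ m = 1)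
    (hlt : ‖η - 1‖ < 1) : η = 1 := by
  by_contra hne
  have hm0 : m ≠ 0 := by
    rintro rfl
    exact hm (dvd_zero q)
  have hη : ‖η‖ = 1 := norm_eq_one_of_pow_eq_one hm0 h
  have h1 : (∑ i ∈ Finset.range m, η ^ i) * (η - 1) = 0 := by
    rw [geom_sum_mul, h, sub_self]
  have h2 : (∑ i ∈ Finset.range m, η ^ i) = 0 := by
    rcases mul_eq_zero.1 h1 with h3 | h3
    · exact h3
    · exact absurd (sub_eq_zero.1 h3) hne
  have h3 := Roots_norm_geom_sum_sub_le hη.le m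
  rw [h2, zero_sub, norm_neg, Roots_norm_natCast_eq_one hm] at h3
  exact absurd hlt (not_lt.2 h3)

/-- `∏_{ξ^m = 1, ξ ≠ 1} (1 - ξ) = m` is a unit. -/
theorem eq_of_norm_sub_lt_one {m : ℕ} (hm : ¬ q ∣ m) {ξ ξ' : Om q} (h : ξ ^ m = 1)
    (h' : ξ' ^ m = 1) (hlt : ‖ξ - ξ'‖ < 1) : ξ = ξ' := by
  have hm0 : m ≠ 0 := by
    rintro rfl
    exact hm (dvd_zero q)
  have hn' : ‖ξ'‖ = 1 := norm_eq_one_of_pow_eq_one hm0 h'
  have h0 : ξ' ≠ 0 := by
    intro h0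
    rw [h0, norm_zero] at hn'
    exact zero_ne_one hn'
  have h1 : (ξ / ξ') ^ m = 1 := by rw [div_pow, h, h', div_one]
  have h2 : ‖ξ / ξ' - 1‖ < 1 := by
    have h3 : ξ / ξ' - 1 = (ξ - ξ') / ξ' := by field_simp
    rw [h3, norm_div, hn', div_one]
    exact hlt
  have h3 := Roots_eq_one_of_norm_sub_lt_one hm h1 h2
  exact (div_eq_one_iff_eq h0).1 h3

theorem Roots_pow_pred_eq_one {N : ℕ} (hN0 : N ≠ 0) {ξ : Om q} (h : ξ ^ N = ξ) (h0 : ξ ≠ 0) :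
    ξ ^ (N - 1) = 1 := by
  obtain ⟨M, rfl⟩ := Nat.exists_eq_succ_of_ne_zero hN0
  rw [Nat.succ_eq_add_one, pow_succ] at h
  rw [Nat.succ_eq_add_one, Nat.add_sub_cancel]
  exact mul_right_cancel₀ h0 (h.trans (one_mul ξ).symm)

/-- the same for the Teichmüller set `{ξ | ξ^N = ξ}`, `q ∣ N`. -/
theorem eq_of_norm_sub_lt_one' {N : ℕ} (hN : q ∣ N) (hN0 : N ≠ 0) {ξ ξ' : Om q} (h : ξ ^ N = ξ)
    (h' : ξ' ^ N = ξ') (hlt : ‖ξ - ξ'‖ < 1) : ξ = ξ' := by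
  have hq : q.Prime := Fact.out
  have hqN : q ≤ N := Nat.le_of_dvd (Nat.pos_of_ne_zero hN0) hN
  have hq2 : 2 ≤ q := hq.two_le
  have hN1 : N - 1 ≠ 0 := by omega
  have hnd : ¬ q ∣ N - 1 := by
    intro hd
    have h1 : q ∣ N - (N - 1) := Nat.dvd_sub hN hd
    have h2 : N - (N - 1) = 1 := by omega
    rw [h2] at h1
    exact hq.one_lt.ne' (Nat.dvd_one.1 h1)
  by_cases h0 : ξ = 0
  · by_cases h0' : ξ' = 0
    · rw [h0, h0']
    · exfalso
      have h1 := norm_eq_one_of_pow_eq_one hN1 (Roots_pow_pred_eq_one hN0 h' h0')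
      rw [h0, zero_sub, norm_neg, h1] at hlt
      exact lt_irrefl _ hlt
  · by_cases h0' : ξ' = 0
    · exfalso
      have h1 := norm_eq_one_of_pow_eq_one hN1 (Roots_pow_pred_eq_one hN0 h h0)
      rw [h0', sub_zero, h1] at hlt
      exact lt_irrefl _ hlt
    · exact eq_of_norm_sub_lt_one hnd (Roots_pow_pred_eq_one hN0 h h0)
        (Roots_pow_pred_eq_one hN0 h' h0') hlt

theorem norm_le_one_of_pow_eq_self {N : ℕ} (hN : 2 ≤ N) {ξ : Om q} (h : ξ ^ N = ξ) : ‖ξ‖ ≤ 1 := by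
  by_cases h0 : ξ = 0
  · rw [h0, norm_zero]; exact zero_le_one
  · exact (norm_eq_one_of_pow_eq_one (by omega)
      (Roots_pow_pred_eq_one (by omega) h h0)).le

/-- there is a primitive `m`-th root of unity in `Ω`. -/
theorem exists_primitiveRoot (m : ℕ) (hm : m ≠ 0) : ∃ ζ : Om q, IsPrimitiveRoot ζ m := by
  have : NeZero m := ⟨hm⟩
  exact HasEnoughRootsOfUnity.exists_primitiveRoot (Om q) m

theorem Roots_pow_modEq_pow_mod {Q n : ℕ} (hQ : 2 ≤ Q) (m : ℕ) :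
    Q ^ m ≡ Q ^ (m % n) [MOD Q ^ n - 1] := by
  have h1 : 1 ≡ Q ^ n [MOD Q ^ n - 1] :=
    (Nat.modEq_iff_dvd' (Nat.one_le_pow _ _ (by omega))).2 dvd_rfl
  have h2 : Q ^ m = (Q ^ n) ^ (m / n) * Q ^ (m % n) := by
    rw [← pow_mul, ← pow_add, Nat.div_add_mod]
  have h3 : (Q ^ n) ^ (m / n) * Q ^ (m % n) ≡ 1 ^ (m / n) * Q ^ (m % n) [MOD Q ^ n - 1] :=
    (h1.symm.pow _).mul_right _
  rw [one_pow, one_mul] at h3
  rw [h2]
  exact h3

/-- `Q^m ≡ Q^m' mod Q^n - 1` iff `m ≡ m' mod n`. -/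
theorem pow_modEq_pow_iff {Q n : ℕ} (hQ : 2 ≤ Q) (hn : n ≠ 0) (m m' : ℕ) :
    Q ^ m ≡ Q ^ m' [MOD Q ^ n - 1] ↔ m ≡ m' [MOD n] := by
  constructor
  · intro h
    rcases Nat.lt_or_ge 1 n with hn1 | hn1
    · have h1 : Q ^ (m % n) ≡ Q ^ (m' % n) [MOD Q ^ n - 1] :=
        ((Roots_pow_modEq_pow_mod hQ m).symm.trans h).trans (Roots_pow_modEq_pow_mod hQ m')
      have hbound : ∀ r, r < n → Q ^ r < Q ^ n - 1 := by
        intro r hr
        have h2 : Q ^ r ≤ Q ^ (n - 1) := Nat.pow_le_pow_right (by omega) (by omega)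
        have h3 : Q ^ n = Q * Q ^ (n - 1) := by
          rw [← pow_succ']; congr 1; omega
        have h4 : 2 ≤ Q ^ (n - 1) := by
          calc 2 ≤ Q := hQ
            _ = Q ^ 1 := (pow_one Q).symm
            _ ≤ Q ^ (n - 1) := Nat.pow_le_pow_right (by omega) (by omega)
        have h5 : 2 * Q ^ (n - 1) ≤ Q * Q ^ (n - 1) := Nat.mul_le_mul_right _ hQ
        omega
      have h2 : Q ^ (m % n) = Q ^ (m' % n) :=
        Nat.ModEq.eq_of_lt_of_lt h1 (hbound _ (Nat.mod_lt _ (by omega)))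
          (hbound _ (Nat.mod_lt _ (by omega)))
      exact Nat.pow_right_injective hQ h2
    · have : n = 1 := by omega
      subst this
      exact Nat.modEq_one
  · intro h
    have h1 : m % n = m' % n := h
    have h2 := Roots_pow_modEq_pow_mod (n := n) hQ m
    rw [h1] at h2
    exact h2.trans (Roots_pow_modEq_pow_mod hQ m').symm

end Fermat.Agent.S55.LOC
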