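import Fermat.Agent.S55.LOC.Amb.Res
import Fermat.Agent.S55.LOC.Amb.Roots

/-!
# S55-LOC (AMB layer) : the Frobenius `ξ ↦ ξ^Q` on the Teichmüller set is realised by an element
of `G_F`
-/

namespace Fermat.Agent.S55.LOC

section ring

open Polynomial

variable (q : ℕ) [Fact q.Prime]

/-- the unit ball of `Ω`. -/
def Frob2_O : Subring (Om q) where
  carrier := {x | ‖x‖ ≤ 1}
  mul_mem' := fun {a b} ha hb => by
    simp only [Set.mem_ofPred_eq, norm_mul] at *
    exact mul_le_one₀ ha (norm_nonneg _) hb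
  one_mem' := by simp
  add_mem' := fun {a b} ha hb => (IsUltrametricDist.norm_add_le_max a b).trans (max_le ha hb)
  zero_mem' := by simp
  neg_mem' := fun {a} ha => by simpa using ha

/-- the open unit ball, as an ideal. -/
def Frob2_I : Ideal (Frob2_O q) where
  carrier := {x | ‖(x : Om q)‖ < 1}
  add_mem' := fun {a b} ha hb =>
    lt_of_le_of_lt (IsUltrametricDist.norm_add_le_max (a : Om q) b) (max_lt ha hb)
  zero_mem' := by simp
  smul_mem' := fun c x hx => by
    simp only [Set.mem_ofPred_eq, smul_eq_mul, Subring.coe_mul, norm_mul] at *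
    exact mul_lt_one_of_nonneg_of_lt_one_right c.2 (norm_nonneg _) hx

variable {q}

theorem Frob2_mem_I {x : Frob2_O q} : x ∈ Frob2_I q ↔ ‖(x : Om q)‖ < 1 := Iff.rfl

theorem Frob2_norm_q : ‖(q : Om q)‖ < 1 := by
  have h := PadicAlgCl.norm_extends q (q : ℚ_[q])
  have h2 : ((q : ℚ_[q]) : PadicAlgCl q) = (q : Om q) := map_natCast (algebraMap ℚ_[q] (Om q)) q
  rw [h2] at h
  rw [h]
  exact Padic.norm_p_lt_one

instance Frob2_nontrivial : Nontrivial (Frob2_O q ⧸ Frob2_I q) := by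
  apply Ideal.Quotient.nontrivial_iff.2
  rw [Ideal.ne_top_iff_one, Frob2_mem_I]
  simp

instance Frob2_charP : CharP (Frob2_O q ⧸ Frob2_I q) q := by
  rw [CharP.charP_iff_prime_eq_zero (Fact.out : q.Prime)]
  have : ((q : Frob2_O q ⧸ Frob2_I q)) = Ideal.Quotient.mk (Frob2_I q) (q : Frob2_O q) := by
    simp
  rw [this, Ideal.Quotient.eq_zero_iff_mem, Frob2_mem_I]
  simpa using Frob2_norm_q (q := q)

/-- `P(z^Q) ≡ P(z)^Q` if the coefficients of `P` are fixed by `x ↦ x^Q` modulo `𝔪`. -/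
theorem Frob2_key (f : ℕ) (P : (Frob2_O q)[X])
    (hP : ∀ i, (P.coeff i) ^ (q ^ f) - P.coeff i ∈ Frob2_I q) (z : Frob2_O q) :
    P.eval (z ^ (q ^ f)) - (P.eval z) ^ (q ^ f) ∈ Frob2_I q := by
  have : ExpChar (Frob2_O q ⧸ Frob2_I q) q := ExpChar.prime (Fact.out : q.Prime)
  set π := Ideal.Quotient.mk (Frob2_I q) with hπ
  set g := P.map π with hg
  have hfix : g.map (iterateFrobenius (Frob2_O q ⧸ Frob2_I q) q f) = g := by
    ext i
    rw [coeff_map, iterateFrobenius_def, hg, coeff_map, ← map_pow]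
    exact (Ideal.Quotient.eq).2 (hP i)
  have h1 := map_iterateFrobenius_expand q g f
  rw [map_expand, hfix] at h1
  have h2 := congrArg (eval (π z)) h1
  rw [expand_eval, eval_pow, hg, ← map_pow, eval_map_apply, eval_map_apply, ← map_pow] at h2
  exact (Ideal.Quotient.eq).1 h2

theorem Frob2_exists_lt (y : Om q) (s : Multiset (Om q))
    (h : ‖(s.map (fun a => y - a)).prod‖ < 1) : ∃ a ∈ s, ‖y - a‖ < 1 := by
  induction s using Multiset.induction_on with
  | empty => simp at h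
  | cons a s ih =>
    rw [Multiset.map_cons, Multiset.prod_cons, norm_mul] at h
    by_cases h1 : ‖y - a‖ < 1
    · exact ⟨a, Multiset.mem_cons_self a s, h1⟩
    · by_cases h2 : ‖(s.map (fun a => y - a)).prod‖ < 1
      · obtain ⟨b, hb, hb1⟩ := ih h2
        exact ⟨b, Multiset.mem_cons_of_mem hb, hb1⟩
      · exact absurd h (not_lt.2 (one_le_mul_of_one_le_of_one_le (not_lt.1 h1) (not_lt.1 h2)))

end ring

variable {q : ℕ} [Fact q.Prime] (F : LF q) [FiniteDimensional ℚ_[q] F]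

open Polynomial in
/-- (F2) Frobenius exists.
[`h = minpoly F ζ` has coefficients in `𝒪_F`, so `‖h(ζ^Q)‖ = ‖h(ζ^Q) - h(ζ)^Q‖ < 1` by (R1);
`h = ∏ (X - ξ_i)` over the conjugates, so `‖ζ^Q - ξ_i‖ < 1` for some `i`, so `ζ^Q = ξ_i` is a
conjugate of `ζ` over `F`; extend to `Ω`.] -/
theorem exists_frob (n : ℕ) (hn : n ≠ 0) :
    ∃ σ ∈ F.fixingSubgroup, ∀ ξ : Om q, ξ ^ (QF F ^ n) = ξ → σ ξ = ξ ^ QF F := by
  classical
  have hq : q.Prime := Fact.out
  set Q := QF F with hQ
  have hQ1 : 1 < Q := one_lt_QF F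
  have hQeq : Q = q ^ resDeg F := QF_eq F
  have hf0 : resDeg F ≠ 0 := resDeg_ne_zero F
  set m := Q ^ n - 1 with hm
  have hN1 : 1 < Q ^ n := Nat.one_lt_pow hn hQ1
  have hm0 : m ≠ 0 := by omega
  have hmq : ¬ q ∣ m := by
    intro hdvd
    have h1 : q ∣ Q ^ n := by
      rw [hQeq]
      exact dvd_pow (dvd_pow_self q hf0) hn
    have h2 : q ∣ 1 := by
      have h3 : Q ^ n = m + 1 := by omega
      rw [h3] at h1
      exact (Nat.dvd_add_right hdvd).1 h1
    exact hq.one_lt.ne' (Nat.dvd_one.1 h2)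
  obtain ⟨ζ, hζ⟩ := exists_primitiveRoot (q := q) m hm0
  have hζm : ζ ^ m = 1 := hζ.pow_eq_one
  have halg : IsAlgebraic F ζ := Algebra.IsAlgebraic.isAlgebraic ζ
  have hint : IsIntegral F ζ := halg.isIntegral
  set h := minpoly F ζ with hh
  set hΩ := h.map (algebraMap F (Om q)) with hhΩ
  have hmonic : hΩ.Monic := (minpoly.monic hint).map _
  have hsplit : hΩ.Splits := IsAlgClosed.splits _
  have hprod := hsplit.eq_prod_roots_of_monic hmonic
  have hroots : ∀ a ∈ hΩ.roots, a ^ m = 1 := by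
    intro a ha
    have hdvd : h ∣ X ^ m - 1 := minpoly.dvd F ζ (by simp [hζm])
    have ha' : hΩ.IsRoot a := (mem_roots hmonic.ne_zero).1 ha
    have h4 : ((X ^ m - 1 : F[X]).map (algebraMap F (Om q))).IsRoot a :=
      ha'.dvd (Polynomial.map_dvd _ hdvd)
    simpa [sub_eq_zero] using h4
  have hlift : hΩ ∈ lifts (Frob2_O q).subtype := by
    rw [hprod]
    refine Subsemiring.multiset_prod_mem _ _ fun c hc => ?_
    obtain ⟨a, ha, rfl⟩ := Multiset.mem_map.1 hc
    rw [mem_lifts]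
    exact ⟨X - C ⟨a, (norm_eq_one_of_pow_eq_one hm0 (hroots a ha)).le⟩, by simp⟩
  obtain ⟨P, hP⟩ := (mem_lifts _).1 hlift
  have hPcoeff : ∀ i, ((P.coeff i : Frob2_O q) : Om q) = algebraMap F (Om q) (h.coeff i) := by
    intro i
    have h5 := congrArg (fun p => p.coeff i) hP
    simpa [hhΩ, coeff_map] using h5
  have hPfix : ∀ i, (P.coeff i) ^ (q ^ resDeg F) - P.coeff i ∈ Frob2_I q := by
    intro i
    rw [Frob2_mem_I, ← hQeq, AddSubgroupClass.coe_sub, SubmonoidClass.coe_pow, hPcoeff]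
    exact norm_pow_QF_sub_lt (h.coeff i).2 (by
      have := (P.coeff i).2
      rw [hPcoeff] at this
      exact this)
  let z : Frob2_O q := ⟨ζ, (norm_eq_one_of_pow_eq_one hm0 hζm).le⟩
  have hkey := Frob2_key (resDeg F) P hPfix z
  have hev : ∀ w : Frob2_O q, ((P.eval w : Frob2_O q) : Om q) = hΩ.eval (w : Om q) := by
    intro w
    rw [← hP]
    exact (eval_map_apply (f := (Frob2_O q).subtype) w).symm
  have hz0 : P.eval z = 0 := by
    apply Subtype.ext
    rw [hev]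
    simp [hhΩ, z, eval_map_algebraMap, hh, minpoly.aeval]
  rw [hz0, zero_pow (pow_ne_zero _ hq.ne_zero), sub_zero, Frob2_mem_I, hev, ← hQeq, hprod,
    eval_multiset_prod, Multiset.map_map] at hkey
  obtain ⟨a, ha, hlt⟩ := Frob2_exists_lt (ζ ^ Q) hΩ.roots (by simpa using hkey)
  have hζQ : ζ ^ Q = a := eq_of_norm_sub_lt_one hmq
    (by rw [← pow_mul, mul_comm, pow_mul, hζm, one_pow]) (hroots a ha) hlt
  have hroot : aeval (ζ ^ Q) h = 0 := by
    rw [hζQ]
    have h6 := (mem_roots hmonic.ne_zero).1 ha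
    rwa [IsRoot.def, eval_map_algebraMap] at h6
  obtain ⟨σ, hσ⟩ := minpoly.exists_algEquiv_of_root' halg hroot
  refine ⟨σ.restrictScalars ℚ_[q], ?_, ?_⟩
  · rw [IntermediateField.mem_fixingSubgroup_iff]
    intro x hx
    exact σ.commutes ⟨x, hx⟩
  · intro ξ hξ
    change σ ξ = ξ ^ Q
    rcases eq_or_ne ξ 0 with rfl | hξ0
    · rw [map_zero, zero_pow (by omega)]
    · have hξm : ξ ^ m = 1 := by
        have h7 : ξ ^ m * ξ = ξ := by
          rw [← pow_succ, hm, Nat.sub_add_cancel hN1.le]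
          exact hξ
        exact mul_right_cancel₀ hξ0 (by rw [h7, one_mul])
      have : NeZero m := ⟨hm0⟩
      obtain ⟨i, -, rfl⟩ := hζ.eq_pow_of_pow_eq_one hξm
      rw [map_pow, hσ, ← pow_mul, ← pow_mul, mul_comm]

end Fermat.Agent.S55.LOC
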