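import Fermat.Agent.S55.LOC.Amb.Frob1
import Fermat.Agent.S55.LOC.Amb.Frob2

/-!
# S55-LOC (AMB layer) : Frobenius (uniqueness of the exponent)
-/

namespace Fermat.Agent.S55.LOC

variable {q : ℕ} [Fact q.Prime] (F : LF q) [FiniteDimensional ℚ_[q] F]

/-- `Q ^ n - 1 ≠ 0`. -/
theorem Frob_pow_sub_one_ne_zero {Q n : ℕ} (hQ : 2 ≤ Q) (hn : n ≠ 0) : Q ^ n - 1 ≠ 0 := by
  have h1 : 1 < Q ^ n := Nat.one_lt_pow hn (by omega)
  omega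

/-- a primitive `(Q^n-1)`-th root of unity lies in the Teichmüller set. -/
theorem Frob_primitiveRoot_pow {Q n : ℕ} (hQ : 2 ≤ Q) (hn : n ≠ 0) {ζ : Om q}
    (hζ : IsPrimitiveRoot ζ (Q ^ n - 1)) : ζ ^ (Q ^ n) = ζ := by
  have h1 : 1 < Q ^ n := Nat.one_lt_pow hn (by omega)
  have h2 : Q ^ n = (Q ^ n - 1) + 1 := by omega
  rw [h2, pow_succ, hζ.pow_eq_one, one_mul]

/-- uniqueness of the exponent modulo `n`. -/
theorem frob_pow_unique {n : ℕ} (hn : n ≠ 0) {m m' : ℕ}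
    (h : ∀ ξ : Om q, ξ ^ (QF F ^ n) = ξ → ξ ^ (QF F ^ m) = ξ ^ (QF F ^ m')) :
    m ≡ m' [MOD n] := by
  have hQ : 2 ≤ QF F := one_lt_QF F
  have hN : QF F ^ n - 1 ≠ 0 := Frob_pow_sub_one_ne_zero hQ hn
  obtain ⟨ζ, hζ⟩ := exists_primitiveRoot (q := q) (QF F ^ n - 1) hN
  have h1 := h ζ (Frob_primitiveRoot_pow hQ hn hζ)
  obtain ⟨u, rfl⟩ := hζ.isUnit hN
  have hu : IsPrimitiveRoot u (QF F ^ n - 1) := IsPrimitiveRoot.coe_units_iff.1 hζ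
  have h2 : u ^ (QF F ^ m) = u ^ (QF F ^ m') := by
    apply Units.ext
    rw [Units.val_pow_eq_pow_val, Units.val_pow_eq_pow_val]
    exact h1
  rw [pow_eq_pow_iff_modEq, ← hu.eq_orderOf] at h2
  exact (pow_modEq_pow_iff hQ hn m m').1 h2

end Fermat.Agent.S55.LOC
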