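import Fermat.Agent.S55.LOC.Amb.Res
import Fermat.Agent.S55.LOC.Amb.Roots

/-!
# S55-LOC (AMB layer) : `G_F` acts on the Teichmüller set `{ξ | ξ^(Q^n) = ξ}` through powers of
`ξ ↦ ξ^Q`
-/

namespace Fermat.Agent.S55.LOC

open scoped NNReal
open Polynomial

section residue

variable (q : ℕ) [Fact q.Prime]

/-- the ring of integers of `Ω`. -/
noncomputable def Frob1_A : ValuationSubring (Om q) :=
  (Valued.v : Valuation (Om q) ℝ≥0).valuationSubring

variable {q}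

theorem Frob1_mem_A {x : Om q} : x ∈ Frob1_A q ↔ ‖x‖ ≤ 1 := by
  rw [Frob1_A, Valuation.mem_valuationSubring_iff, PadicAlgCl.valuation_def]
  exact_mod_cast Iff.rfl

theorem Frob1_isUnit_iff (a : Frob1_A q) : IsUnit a ↔ ‖(a : Om q)‖ = 1 := by
  have ha : ‖(a : Om q)‖ ≤ 1 := Frob1_mem_A.mp a.2
  constructor
  · rintro ⟨u, rfl⟩
    have h1 : ((u : Frob1_A q) : Om q) * (((u⁻¹ : (Frob1_A q)ˣ) : Frob1_A q) : Om q) = 1 := by
      have h0 : ((u : Frob1_A q) * ((u⁻¹ : (Frob1_A q)ˣ) : Frob1_A q)) = 1 := Units.mul_inv u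
      exact congrArg (fun z : Frob1_A q => (z : Om q)) h0
    have h2 : ‖(((u⁻¹ : (Frob1_A q)ˣ) : Frob1_A q) : Om q)‖ ≤ 1 := Frob1_mem_A.mp (Subtype.property _)
    have h3 := congrArg norm h1
    rw [norm_mul, norm_one] at h3
    have h4 : 0 ≤ ‖((u : Frob1_A q) : Om q)‖ := norm_nonneg _
    nlinarith
  · intro h
    have h0 : (a : Om q) ≠ 0 := by
      intro h0
      rw [h0, norm_zero] at h
      exact zero_ne_one h
    have hinv : (a : Om q)⁻¹ ∈ Frob1_A q := by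
      rw [Frob1_mem_A, norm_inv, h, inv_one]
    refine IsUnit.of_mul_eq_one (⟨(a : Om q)⁻¹, hinv⟩ : Frob1_A q) ?_
    apply Subtype.ext
    exact mul_inv_cancel₀ h0

theorem Frob1_res_eq_zero (a : Frob1_A q) :
    IsLocalRing.residue (Frob1_A q) a = 0 ↔ ‖(a : Om q)‖ < 1 := by
  rw [IsLocalRing.residue_eq_zero_iff, IsLocalRing.mem_maximalIdeal, mem_nonunits_iff,
    Frob1_isUnit_iff]
  have ha : ‖(a : Om q)‖ ≤ 1 := Frob1_mem_A.mp a.2
  constructor
  · intro h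
    exact lt_of_le_of_ne ha h
  · intro h
    exact h.ne

theorem Frob1_res_eq_iff (a b : Frob1_A q) :
    IsLocalRing.residue (Frob1_A q) a = IsLocalRing.residue (Frob1_A q) b ↔
      ‖(a : Om q) - (b : Om q)‖ < 1 := by
  rw [← sub_eq_zero, ← map_sub, Frob1_res_eq_zero]
  rfl

instance Frob1_charP : CharP (IsLocalRing.ResidueField (Frob1_A q)) q := by
  rw [CharP.charP_iff_prime_eq_zero (Fact.out : q.Prime)]
  have h1 : ‖((q : Frob1_A q) : Om q)‖ < 1 := by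
    have h2 : ((q : Frob1_A q) : Om q) = ((q : ℚ_[q]) : Om q) := by
      simp
    rw [h2, PadicAlgCl.norm_extends, Padic.norm_p]
    have : (1 : ℝ) < q := by exact_mod_cast (Fact.out : q.Prime).one_lt
    exact inv_lt_one_of_one_lt₀ this
  have h3 := (Frob1_res_eq_zero (q : Frob1_A q)).mpr h1
  rwa [map_natCast] at h3

/-- the restriction of `g` to the ring of integers. -/
noncomputable def Frob1_gA (g : Gq q) : Frob1_A q →+* Frob1_A q :=
  (g : Om q →+* Om q).restrict (Frob1_A q) (Frob1_A q) (fun x hx => by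
    rw [Frob1_mem_A] at hx ⊢
    rw [RingHom.coe_coe, norm_gal]
    exact hx)

theorem Frob1_gA_coe (g : Gq q) (a : Frob1_A q) : ((Frob1_gA g a : Frob1_A q) : Om q) = g a := rfl

instance Frob1_isLocalHom (g : Gq q) : IsLocalHom (Frob1_gA g) := by
  constructor
  intro a ha
  rw [Frob1_isUnit_iff, Frob1_gA_coe, norm_gal] at ha
  exact (Frob1_isUnit_iff a).mpr ha

end residue

variable {q : ℕ} [Fact q.Prime] (F : LF q) [FiniteDimensional ℚ_[q] F]

/-- an element of the residue field of `Ω` with `c^Q = c` is fixed by `G_F`. -/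
theorem Frob1_fixed {g : Gq q} (hg : g ∈ F.fixingSubgroup)
    (c : IsLocalRing.ResidueField (Frob1_A q)) (hc : c ^ QF F = c) :
    IsLocalRing.ResidueField.map (Frob1_gA g) c = c := by
  obtain ⟨y, rfl⟩ := IsLocalRing.residue_surjective c
  have h1 : ‖(y : Om q)‖ ≤ 1 := Frob1_mem_A.mp y.2
  have h2 : ‖(y : Om q) ^ QF F - (y : Om q)‖ < 1 := by
    rw [← map_pow] at hc
    exact (Frob1_res_eq_iff (y ^ QF F) y).mp hc
  obtain ⟨x, hxF, hx1, hyx⟩ := exists_mem_of_norm_pow_QF_sub_lt F h1 h2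
  have hyx' : IsLocalRing.residue (Frob1_A q) y =
      IsLocalRing.residue (Frob1_A q) ⟨x, Frob1_mem_A.mpr hx1⟩ :=
    (Frob1_res_eq_iff y ⟨x, Frob1_mem_A.mpr hx1⟩).mpr hyx
  rw [hyx', IsLocalRing.ResidueField.map_residue]
  congr 1
  apply Subtype.ext
  rw [Frob1_gA_coe]
  exact (IntermediateField.mem_fixingSubgroup_iff F g).mp hg x hxF

/-- field-level statement: a ring endomorphism fixing the `Q`-Frobenius-fixed points acts on a
`Q^n`-Frobenius-fixed point as a power of the `Q`-Frobenius. -/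
theorem Frob1_field {k : Type*} [Field k] (p : ℕ) [Fact p.Prime] [CharP k p] (f Q : ℕ)
    (hQ : Q = p ^ f) (gk : k →+* k) (hfix : ∀ c : k, c ^ Q = c → gk c = c)
    (n : ℕ) (hn : n ≠ 0) (z : k) (hzn : z ^ (Q ^ n) = z) :
    ∃ m : ℕ, gk z = z ^ (Q ^ m) := by
  classical
  obtain ⟨R, hR⟩ : ∃ R : k[X], R = ∏ m ∈ Finset.range n, (X - C (z ^ (Q ^ m))) := ⟨_, rfl⟩
  obtain ⟨φ, hφ⟩ : ∃ φ : k →+* k, ∀ x : k, φ x = x ^ Q := by
    refine ⟨iterateFrobenius k p f, ?_⟩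
    intro x
    rw [hQ]
    rfl
  have hRφ : R.map φ = R := by
    have h1 : R.map φ = ∏ m ∈ Finset.range n, (X - C (z ^ (Q ^ (m + 1)))) := by
      rw [hR, Polynomial.map_prod]
      apply Finset.prod_congr rfl
      intro m _
      rw [Polynomial.map_sub, Polynomial.map_X, Polynomial.map_C, hφ, ← pow_mul, ← pow_succ]
    rw [h1, hR]
    have h2 := Finset.prod_range_succ (fun m => (X - C (z ^ (Q ^ m)) : k[X])) n
    have h3 := Finset.prod_range_succ' (fun m => (X - C (z ^ (Q ^ m)) : k[X])) n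
    rw [h2] at h3
    simp only [pow_zero, pow_one, hzn] at h3
    exact (mul_right_cancel₀ (X_sub_C_ne_zero z) h3).symm
  have hcoeff : ∀ j, (R.coeff j) ^ Q = R.coeff j := by
    intro j
    rw [← hφ, ← Polynomial.coeff_map, hRφ]
  have hRg : R.map gk = R := by
    ext j
    rw [Polynomial.coeff_map]
    exact hfix _ (hcoeff j)
  have hroot : R.eval z = 0 := by
    rw [hR, Polynomial.eval_prod]
    apply Finset.prod_eq_zero (Finset.mem_range.mpr (Nat.pos_of_ne_zero hn))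
    simp
  have hroot' : R.eval (gk z) = 0 := by
    have h1 : (R.map gk).eval (gk z) = gk (R.eval z) := Polynomial.eval_map_apply gk z
    rw [hRg, hroot, map_zero] at h1
    exact h1
  rw [hR, Polynomial.eval_prod, Finset.prod_eq_zero_iff] at hroot'
  obtain ⟨m, -, hm⟩ := hroot'
  rw [Polynomial.eval_sub, Polynomial.eval_X, Polynomial.eval_C, sub_eq_zero] at hm
  exact ⟨m, hm⟩

/-- the key step for one element of norm one. -/
theorem Frob1_key {g : Gq q} (hg : g ∈ F.fixingSubgroup) (n : ℕ) (hn : n ≠ 0)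
    (ζ : Om q) (hζnorm : ‖ζ‖ = 1) (hζn : ζ ^ (QF F ^ n) = ζ) :
    ∃ m : ℕ, ‖g ζ - ζ ^ (QF F ^ m)‖ < 1 := by
  obtain ⟨ζA, hζA⟩ : ∃ ζA : Frob1_A q, (ζA : Om q) = ζ := ⟨⟨ζ, Frob1_mem_A.mpr hζnorm.le⟩, rfl⟩
  have hzn : (IsLocalRing.residue (Frob1_A q) ζA) ^ (QF F ^ n) =
      IsLocalRing.residue (Frob1_A q) ζA := by
    rw [← map_pow]
    congr 1
    apply Subtype.ext
    rw [SubmonoidClass.coe_pow, hζA]
    exact hζn
  obtain ⟨m, hm⟩ := Frob1_field q (resDeg F) (QF F) (QF_eq F)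
    (IsLocalRing.ResidueField.map (Frob1_gA g)) (Frob1_fixed F hg) n hn _ hzn
  refine ⟨m, ?_⟩
  rw [IsLocalRing.ResidueField.map_residue, ← map_pow, Frob1_res_eq_iff, Frob1_gA_coe,
    SubmonoidClass.coe_pow, hζA] at hm
  exact hm

/-- (F1) every `g ∈ G_F` acts as a power of Frobenius.
[`ζ` a primitive `(Q^n-1)`-th root of unity, `R = ∏_{m<n} (X - ζ^(Q^m))`; each coefficient `c` of
`R` satisfies `‖c^Q - c‖ < 1` (Frobenius permutes the roots mod `𝔪_Ω`), so `‖c - x‖ < 1` for some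
`x ∈ 𝒪_F` by (R2), so `‖g c - c‖ < 1`; hence `‖R(g ζ)‖ = ‖R(gζ) - g(R(ζ))‖ < 1`, so
`‖g ζ - ζ^(Q^m)‖ < 1` for some `m`, so `g ζ = ζ^(Q^m)`.] -/
theorem exists_frob_pow {g : Gq q} (hg : g ∈ F.fixingSubgroup) (n : ℕ) (hn : n ≠ 0) :
    ∃ m : ℕ, ∀ ξ : Om q, ξ ^ (QF F ^ n) = ξ → g ξ = ξ ^ (QF F ^ m) := by
  have hQ : 1 < QF F := one_lt_QF F
  have hQn : 1 < QF F ^ n := Nat.one_lt_pow hn hQ
  have hN0 : QF F ^ n - 1 ≠ 0 := by omega
  have hN1 : QF F ^ n = (QF F ^ n - 1) + 1 := by omega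
  obtain ⟨ζ, hζ⟩ := exists_primitiveRoot (q := q) (QF F ^ n - 1) hN0
  have hζ1 : ζ ^ (QF F ^ n - 1) = 1 := hζ.pow_eq_one
  have hζn : ζ ^ (QF F ^ n) = ζ := by rw [hN1, pow_succ, hζ1, one_mul]
  have hζnorm : ‖ζ‖ = 1 := norm_eq_one_of_pow_eq_one hN0 hζ1
  have hqN : ¬ q ∣ QF F ^ n - 1 := by
    intro hd
    have h1 : q ∣ QF F ^ n := by
      rw [QF_eq F, ← pow_mul]
      exact dvd_pow_self q (mul_ne_zero (resDeg_ne_zero F) hn)
    have h2 : q ∣ 1 := by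
      have := (Nat.dvd_sub h1 hd)
      rwa [show QF F ^ n - (QF F ^ n - 1) = 1 by omega] at this
    exact (Fact.out : q.Prime).one_lt.ne' (Nat.dvd_one.mp h2)
  obtain ⟨m, hlt⟩ := Frob1_key F hg n hn ζ hζnorm hζn
  have hgζ : g ζ = ζ ^ (QF F ^ m) := by
    apply eq_of_norm_sub_lt_one hqN _ _ hlt
    · rw [← map_pow, hζ1, map_one]
    · rw [← pow_mul, mul_comm, pow_mul, hζ1, one_pow]
  refine ⟨m, ?_⟩
  intro ξ hξ
  rcases eq_or_ne ξ 0 with rfl | hξ0
  · rw [map_zero, zero_pow (pow_ne_zero m (by omega))]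
  · have hξ1 : ξ ^ (QF F ^ n - 1) = 1 := by
      rw [hN1, pow_succ] at hξ
      exact mul_right_cancel₀ hξ0 (by rw [hξ, one_mul])
    haveI : NeZero (QF F ^ n - 1) := ⟨hN0⟩
    obtain ⟨i, -, rfl⟩ := hζ.eq_pow_of_pow_eq_one hξ1
    rw [map_pow, hgζ, ← pow_mul, ← pow_mul, mul_comm]

end Fermat.Agent.S55.LOC
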