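import Fermat.Agent.S55.LOC.Amb.Basic
import Fermat.Agent.S55.LDB.Defs

/-!
# S55-LOC (AMB layer) : open subgroups of `G = Gal(Ω/ℚ_q)` and finite subextensions
-/

namespace Fermat.Agent.S55.LOC

open Fermat.Agent.S55.LDB

variable (q : ℕ) [Fact q.Prime]

/-- `U` contains `G_E` for some finite `E/ℚ_q`. -/
def IsOpenSub (U : Subgroup (Gq q)) : Prop :=
  ∃ E : LF q, FiniteDimensional ℚ_[q] E ∧ E.fixingSubgroup ≤ U

variable {q}

theorem isOpenSub_top : IsOpenSub q ⊤ := by
  exact ⟨⊥, inferInstance, le_top⟩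

theorem IsOpenSub.inf {U V : Subgroup (Gq q)} (hU : IsOpenSub q U) (hV : IsOpenSub q V) :
    IsOpenSub q (U ⊓ V) := by
  obtain ⟨E, hE, hEU⟩ := hU
  obtain ⟨E', hE', hEV⟩ := hV
  refine ⟨E ⊔ E', IntermediateField.finiteDimensional_sup E E', ?_⟩
  rw [IntermediateField.fixingSubgroup_sup]
  exact inf_le_inf hEU hEV

theorem IsOpenSub.mono {U V : Subgroup (Gq q)} (hU : IsOpenSub q U) (h : U ≤ V) :
    IsOpenSub q V := by
  obtain ⟨E, hE, hEU⟩ := hU
  exact ⟨E, hE, hEU.trans h⟩

theorem IsOpenSub.exists_normal {U : Subgroup (Gq q)} (hU : IsOpenSub q U) :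
    ∃ N : Subgroup (Gq q), N.Normal ∧ IsOpenSub q N ∧ N ≤ U := by
  obtain ⟨E, hE, hEU⟩ := hU
  have hfd : FiniteDimensional ℚ_[q] (IntermediateField.normalClosure ℚ_[q] E (Om q)) :=
    normalClosure.is_finiteDimensional ℚ_[q] E (Om q)
  have hgal : IsGalois ℚ_[q] (IntermediateField.normalClosure ℚ_[q] E (Om q)) :=
    IsGalois.normalClosure ℚ_[q] E (Om q)
  refine ⟨(IntermediateField.normalClosure ℚ_[q] E (Om q)).fixingSubgroup,
    (InfiniteGalois.normal_iff_isGalois _).mpr hgal, ⟨_, hfd, le_rfl⟩, ?_⟩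
  exact (IntermediateField.fixingSubgroup_antitone E.le_normalClosure).trans hEU

theorem IsOpenSub.finiteIndex {U : Subgroup (Gq q)} (hU : IsOpenSub q U) : U.FiniteIndex := by
  obtain ⟨E, hE, hEU⟩ := hU
  have h1 : E.fixingSubgroup.FiniteIndex := by
    constructor
    rw [← IntermediateField.finrank_eq_fixingSubgroup_index]
    exact Module.finrank_pos.ne'
  exact Subgroup.finiteIndex_of_le hEU

variable (q)

/-- The family of open subgroups of `Gal(Ω/ℚ_q)`. -/
noncomputable def locOpens : OpenFam (Gq q) where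
  isOpen := IsOpenSub q
  isOpen_top := isOpenSub_top
  inf := IsOpenSub.inf
  mono := IsOpenSub.mono
  exists_normal := IsOpenSub.exists_normal
  finiteIndex := IsOpenSub.finiteIndex

variable {q}

theorem isOpenSub_fixingSubgroup (E : LF q) [FiniteDimensional ℚ_[q] E] :
    IsOpenSub q E.fixingSubgroup := ⟨E, inferInstance, le_rfl⟩

/-- The field `F_U = Ω^U`. -/
noncomputable abbrev fixF (U : Subgroup (Gq q)) : LF q := IntermediateField.fixedField U

theorem finiteDimensional_fixF {U : Subgroup (Gq q)} (hU : IsOpenSub q U) :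
    FiniteDimensional ℚ_[q] (fixF U) := by
  obtain ⟨E, hE, hEU⟩ := hU
  have hle : fixF U ≤ E := by
    rw [← InfiniteGalois.fixedField_fixingSubgroup E]
    exact IntermediateField.fixedField_antitone hEU
  exact FiniteDimensional.of_injective (IntermediateField.inclusion hle).toLinearMap
    (IntermediateField.inclusion_injective hle)

/-- Galois correspondence for open subgroups. -/
theorem fixingSubgroup_fixF {U : Subgroup (Gq q)} (hU : IsOpenSub q U) :
    (fixF U).fixingSubgroup = U := by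
  obtain ⟨E, hE, hEU⟩ := hU
  have hopen : IsOpen (U : Set (Gq q)) :=
    Subgroup.isOpen_mono hEU (IntermediateField.fixingSubgroup_isOpen E)
  have hclosed : IsClosed (U : Set (Gq q)) := Subgroup.isClosed_of_isOpen U hopen
  exact InfiniteGalois.fixingSubgroup_fixedField ⟨U, hclosed⟩

theorem finrank_fixF {U : Subgroup (Gq q)} (hU : IsOpenSub q U) :
    Module.finrank ℚ_[q] (fixF U) = U.index := by
  rw [IntermediateField.finrank_eq_fixingSubgroup_index, fixingSubgroup_fixF hU]

theorem fixF_anti {U V : Subgroup (Gq q)} (h : V ≤ U) : fixF U ≤ fixF V := by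
  exact IntermediateField.fixedField_antitone h

theorem fix_iff {U : Subgroup (Gq q)} {a : (Om q)ˣ} : Fix U a ↔ (a : Om q) ∈ fixF U := by
  rw [IntermediateField.mem_fixedField_iff]
  constructor
  · intro h g hg
    exact congrArg Units.val (h g hg)
  · intro h g hg
    exact Units.ext (h g hg)

end Fermat.Agent.S55.LOC
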