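import Fermat.Agent.S55.LOC.Amb.Basic
import Fermat.Agent.S55.LOC.Nrm.Data

/-!
# S55-LOC (AMB layer) : the normalised valuation `ordF F`
-/

namespace Fermat.Agent.S55.LOC

variable {q : ℕ} [Fact q.Prime]

theorem IsUnif.norm_eq {F : LF q} {π π' : Om q} (h : IsUnif F π) (h' : IsUnif F π') :
    ‖π‖ = ‖π'‖ := by
  exact le_antisymm (h'.2.2.2 π h.1 h.2.2.1) (h.2.2.2 π' h'.1 h'.2.2.1)

theorem ordF_eq {F : LF q} {π : Om q} (hπ : IsUnif F π) {a : Om q} {m : ℤ}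
    (h : ‖a‖ = ‖π‖ ^ m) : ordF F a = m := by
  have hex : ∃ m : ℤ, ∃ π, IsUnif F π ∧ ‖a‖ = ‖π‖ ^ m := ⟨m, π, hπ, h⟩
  rw [ordF, dif_pos hex]
  obtain ⟨π', hπ', h'⟩ := hex.choose_spec
  rw [hπ'.norm_eq hπ] at h'
  exact (zpow_right_injective₀ (norm_pos_iff.2 hπ.2.1) hπ.2.2.1.ne (h.symm.trans h')).symm

theorem ordF_gal (F : LF q) (g : Gq q) (a : Om q) : ordF F (g a) = ordF F a := by
  by_cases hex : ∃ m : ℤ, ∃ π, IsUnif F π ∧ ‖a‖ = ‖π‖ ^ m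
  · obtain ⟨m, π, hπ, h⟩ := hex
    rw [ordF_eq hπ h, ordF_eq hπ ((norm_gal g a).trans h)]
  · have hex' : ¬ ∃ m : ℤ, ∃ π, IsUnif F π ∧ ‖g a‖ = ‖π‖ ^ m := by
      rw [norm_gal]
      exact hex
    rw [ordF, ordF, dif_neg hex, dif_neg hex']

theorem ordF_unif {F : LF q} {π : Om q} (hπ : IsUnif F π) : ordF F π = 1 := by
  exact ordF_eq hπ (zpow_one _).symm

theorem Ord_norm_q : ‖((q : ℕ) : Om q)‖ = (q : ℝ)⁻¹ := by
  have h : ((q : ℕ) : PadicAlgCl q) = algebraMap ℚ_[q] (PadicAlgCl q) (q : ℚ_[q]) := by simp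
  rw [h, PadicAlgCl.norm_extends, Padic.norm_p]

theorem Ord_q_ne_zero (q : ℕ) [Fact q.Prime] : ((q : ℕ) : Om q) ≠ 0 := by
  exact_mod_cast (Fact.out : q.Prime).ne_zero

theorem Ord_pos {F : LF q} {π : Om q} (hπ : IsUnif F π) {a : Om q} {m : ℤ}
    (h : ‖a‖ = ‖π‖ ^ m) (ha : ‖a‖ < 1) : 0 < m := by
  rw [h] at ha
  exact (zpow_lt_one_iff_right_of_lt_one₀ (norm_pos_iff.2 hπ.2.1) hπ.2.2.1).1 ha

variable (F : LF q) [FiniteDimensional ℚ_[q] F]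

theorem Ord_exists_unif : ∃ π, IsUnif F π ∧ ∀ a ∈ F, a ≠ 0 → ∃ m : ℤ, ‖a‖ = ‖π‖ ^ m := by
  obtain ⟨π, h0, h1, h2, h3⟩ := exists_unif_norm (↥F)
  refine ⟨(π : Om q), ⟨π.2, fun h => h0 (Subtype.ext h), h1, fun x hx hx1 => h2 ⟨x, hx⟩ hx1⟩, ?_⟩
  intro a ha ha0
  exact h3 ⟨a, ha⟩ (fun h => ha0 (congrArg Subtype.val h))

theorem exists_isUnif : ∃ π, IsUnif F π := by
  obtain ⟨π, hπ, -⟩ := Ord_exists_unif F
  exact ⟨π, hπ⟩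

variable {F}

theorem norm_eq_zpow_ordF {π : Om q} (hπ : IsUnif F π) {a : Om q} (ha : a ∈ F) (ha0 : a ≠ 0) :
    ‖a‖ = ‖π‖ ^ ordF F a := by
  obtain ⟨π₀, hπ₀, hm⟩ := Ord_exists_unif F
  obtain ⟨m, hm⟩ := hm a ha ha0
  rw [hπ₀.norm_eq hπ] at hm
  rw [ordF_eq hπ hm, hm]

theorem ordF_mul {a b : Om q} (ha : a ∈ F) (hb : b ∈ F) (ha0 : a ≠ 0) (hb0 : b ≠ 0) :
    ordF F (a * b) = ordF F a + ordF F b := by
  obtain ⟨π, hπ⟩ := exists_isUnif F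
  refine ordF_eq hπ ?_
  rw [norm_mul, norm_eq_zpow_ordF hπ ha ha0, norm_eq_zpow_ordF hπ hb hb0,
    zpow_add₀ (norm_ne_zero_iff.2 hπ.2.1)]

variable (F)

theorem Ord_ordF_q_pos : 0 < ordF F (q : Om q) := by
  obtain ⟨π, hπ⟩ := exists_isUnif F
  refine Ord_pos hπ (norm_eq_zpow_ordF hπ (natCast_mem F q) (Ord_q_ne_zero q)) ?_
  rw [Ord_norm_q]
  exact inv_lt_one_of_one_lt₀ (by exact_mod_cast (Fact.out : q.Prime).one_lt)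

theorem ordF_q : ordF F (q : Om q) = ramIdx F := by
  rw [ramIdx, Int.toNat_of_nonneg (Ord_ordF_q_pos F).le]

theorem ramIdx_ne_zero : ramIdx F ≠ 0 := by
  have h := Ord_ordF_q_pos F
  rw [ramIdx]
  omega

theorem norm_unif_pow_ramIdx {π : Om q} (hπ : IsUnif F π) : ‖π‖ ^ ramIdx F = (q : ℝ)⁻¹ := by
  rw [← zpow_natCast, ← ordF_q, ← norm_eq_zpow_ordF hπ (natCast_mem F q) (Ord_q_ne_zero q),
    Ord_norm_q]

/-- relative ramification index. -/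
theorem ordF_of_le (E : LF q) [FiniteDimensional ℚ_[q] E] (h : F ≤ E) :
    ∃ e : ℕ, ramIdx E = e * ramIdx F ∧ ∀ a ∈ F, a ≠ 0 → ordF E a = e * ordF F a := by
  obtain ⟨π, hπ⟩ := exists_isUnif F
  obtain ⟨ϖ, hϖ⟩ := exists_isUnif E
  have h1 : ‖π‖ = ‖ϖ‖ ^ ordF E π := norm_eq_zpow_ordF hϖ (h hπ.1) hπ.2.1
  have hpos : 0 < ordF E π := Ord_pos hϖ h1 hπ.2.2.1
  have he : ((ordF E π).toNat : ℤ) = ordF E π := Int.toNat_of_nonneg hpos.le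
  have key : ∀ a ∈ F, a ≠ 0 → ordF E a = ((ordF E π).toNat : ℤ) * ordF F a := by
    intro a ha ha0
    refine ordF_eq hϖ ?_
    rw [he, zpow_mul, ← h1]
    exact norm_eq_zpow_ordF hπ ha ha0
  refine ⟨(ordF E π).toNat, ?_, key⟩
  have h2 := key (q : Om q) (natCast_mem F q) (Ord_q_ne_zero q)
  rw [ordF_q, ordF_q] at h2
  exact_mod_cast h2

end Fermat.Agent.S55.LOC
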