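import Fermat.Agent.S55.LOC.Amb.Galois
import Fermat.Agent.S55.LOC.Nrm.PowIndex
import Fermat.Agent.S55.LOC.Formal.Idx

/-!
# S55-LOC (AMB layer) : `[A^U : (A^U)^p] = #A^U[p] · p · c^[G:U]`, `A = Ωˣ`, `c = p` or `1`
-/

namespace Fermat.Agent.S55.LOC

open Fermat.Agent.S55.LDB Fermat.Agent.S55.HQ

variable {q : ℕ} [Fact q.Prime]

/-- `(F_U)ˣ ≃* A^U`. -/
theorem nonempty_units_fixF_mulEquiv (U : Subgroup (Gq q)) :
    Nonempty ((fixF U)ˣ ≃* fixSub (Om q)ˣ U) := by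
  let f : (fixF U)ˣ →* (Om q)ˣ := Units.map ((algebraMap (fixF U) (Om q) : _ →+* _) : _ →* _)
  have hf : ∀ x, f x ∈ fixSub (Om q)ˣ U := by
    intro x
    rw [mem_fixSub, fix_iff]
    exact (x : fixF U).2
  refine ⟨MulEquiv.ofBijective (f.codRestrict _ hf) ⟨?_, ?_⟩⟩
  · intro x y hxy
    have h1 : f x = f y := congrArg Subtype.val hxy
    have h2 : ((f x : (Om q)ˣ) : Om q) = f y := by rw [h1]
    exact Units.ext (Subtype.ext h2)
  · rintro ⟨y, hy⟩
    rw [mem_fixSub, fix_iff] at hy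
    have h0 : (⟨(y : Om q), hy⟩ : fixF U) ≠ 0 := by
      intro h
      exact y.ne_zero (congrArg Subtype.val h)
    refine ⟨Units.mk0 ⟨(y : Om q), hy⟩ h0, ?_⟩
    apply Subtype.ext
    apply Units.ext
    rfl

/-- **(A″)** -/
theorem powIdx_fixSub (p : ℕ) (hp : p.Prime) {U : Subgroup (Gq q)} (hU : IsOpenSub q U) :
    powIdx p (fixSub (Om q)ˣ U) =
      torCard p (fixSub (Om q)ˣ U) * p * (if p = q then p else 1) ^ U.index := by
  haveI := finiteDimensional_fixF hU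
  obtain ⟨e⟩ := nonempty_units_fixF_mulEquiv U
  rw [powIdx_eq_top, torCard_eq_top, ← powIdx_top_congr e, ← torCard_top_congr e, powIdx_top,
    torCard_top, index_pow_units_nrm q (fixF U) p hp, finrank_fixF hU]

end Fermat.Agent.S55.LOC
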