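import Fermat.Agent.S55.LOC.Amb.Ord
import Fermat.Agent.S55.LOC.Nrm.Padic
import Fermat.Agent.S55.LOC.Amb.Roots

/-!
# S55-LOC (AMB layer) : the residue field of `F ⊆ Ω` inside the residue field of `Ω`
-/

namespace Fermat.Agent.S55.LOC

variable {q : ℕ} [Fact q.Prime] (F : LF q) [FiniteDimensional ℚ_[q] F]

theorem one_lt_QF : 1 < QF F := by
  exact one_lt_resCard F

variable {F}

/-- (R1) -/
theorem norm_pow_QF_sub_lt {x : Om q} (hx : x ∈ F) (h1 : ‖x‖ ≤ 1) : ‖x ^ QF F - x‖ < 1 := by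
  exact norm_pow_resCard_sub_lt (K := F) (x := ⟨x, hx⟩) h1

variable (F)

section
open scoped NormedField Valued
open Valued.integer Polynomial

/-- (R2) the residue field of `F` is exactly `{y | y^Q = y}` in the residue field of `Ω`
[`X^Q - X` has at most `Q` roots in the field `𝒪_Ω/𝔪_Ω`; or
`‖∏_{r ∈ R} (y - r) - (y^Q - y)‖ < 1` for a system of representatives `R`]. -/
theorem exists_mem_of_norm_pow_QF_sub_lt {y : Om q} (h1 : ‖y‖ ≤ 1) (h : ‖y ^ QF F - y‖ < 1) :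
    ∃ x ∈ F, ‖x‖ ≤ 1 ∧ ‖y - x‖ < 1 := by
  classical
  obtain ⟨R, hcard, hR1, hRne, -⟩ := exists_reps (K := ↥F)
  by_contra hcon
  push Not at hcon
  have hQ : 1 < QF F := one_lt_QF F
  -- the residue map of `Ω`
  let res : 𝒪[Om q] →+* 𝓀[Om q] := IsLocalRing.residue 𝒪[Om q]
  have hres : ∀ a b : 𝒪[Om q], res a = res b ↔ ‖(a : Om q) - b‖ < 1 := by
    intro a b
    rw [← sub_eq_zero, ← map_sub, IsLocalRing.residue_eq_zero_iff, Data_mem_maximalIdeal_iff]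
    rfl
  let P : (𝓀[Om q])[X] := X ^ QF F - X
  have hP0 : P ≠ 0 := FiniteField.X_pow_card_sub_X_ne_zero _ hQ
  have hPdeg : P.natDegree = QF F := FiniteField.X_pow_card_sub_X_natDegree_eq _ hQ
  have hroot : ∀ a : 𝒪[Om q], ‖(a : Om q) ^ QF F - a‖ < 1 → res a ∈ P.roots.toFinset := by
    intro a ha
    rw [Multiset.mem_toFinset, mem_roots hP0, IsRoot.def]
    simp only [P, eval_sub, eval_pow, eval_X]
    rw [sub_eq_zero, ← map_pow, hres]
    exact ha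
  let ι : ↥F → 𝓀[Om q] := fun r =>
    if hr : ‖(r : Om q)‖ ≤ 1 then res ⟨(r : Om q), mem_iff.2 hr⟩ else 0
  have hι : ∀ (r : ↥F) (hr : r ∈ R), ι r = res ⟨(r : Om q), mem_iff.2 (hR1 r hr)⟩ := by
    intro r hr
    have h2 : ‖((r : ↥F) : Om q)‖ ≤ 1 := hR1 r hr
    simp only [ι, h2, dif_pos]
  have hinj : Set.InjOn ι (R : Set ↥F) := by
    intro r hr r' hr' hrr
    by_contra hne
    rw [hι r hr, hι r' hr', hres] at hrr
    have h2 : ‖((r : ↥F) : Om q) - r'‖ = 1 := hRne r hr r' hr' hne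
    exact absurd hrr (by rw [h2]; exact lt_irrefl _)
  have hsub : insert (res ⟨y, mem_iff.2 h1⟩) (R.image ι) ⊆ P.roots.toFinset := by
    intro c hc
    rcases Finset.mem_insert.1 hc with rfl | hc
    · exact hroot _ h
    · obtain ⟨r, hr, rfl⟩ := Finset.mem_image.1 hc
      rw [hι r hr]
      exact hroot _ (norm_pow_QF_sub_lt r.2 (hR1 r hr))
  have hnot : res ⟨y, mem_iff.2 h1⟩ ∉ R.image ι := by
    intro hc
    obtain ⟨r, hr, hry⟩ := Finset.mem_image.1 hc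
    rw [hι r hr, hres] at hry
    have h3 := hcon r r.2 (hR1 r hr)
    rw [norm_sub_rev] at h3
    exact absurd hry (not_lt.2 h3)
  have hc1 := Finset.card_le_card hsub
  rw [Finset.card_insert_of_notMem hnot, Finset.card_image_of_injOn hinj, hcard] at hc1
  have hc2 : P.roots.toFinset.card ≤ QF F :=
    (Multiset.toFinset_card_le _).trans ((card_roots' P).trans hPdeg.le)
  have hc3 : resCard ↥F = QF F := rfl
  omega

end

theorem QF_eq : QF F = q ^ resDeg F := by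
  obtain ⟨e, f, -, hf, -⟩ := exists_e_f q ↥F
  have h : QF F = q ^ f := hf
  rw [resDeg, h, Nat.log_pow (Fact.out : q.Prime).one_lt]

theorem resDeg_ne_zero : resDeg F ≠ 0 := by
  intro h
  have h1 := one_lt_QF F
  rw [QF_eq, h, pow_zero] at h1
  exact lt_irrefl _ h1

/-- `e f = n`. -/
theorem ramIdx_mul_resDeg : ramIdx F * resDeg F = Module.finrank ℚ_[q] F := by
  obtain ⟨e, f, hef, hf, hπ⟩ := exists_e_f q ↥F
  obtain ⟨π, hπF, hπ0, hπ1, hπmax⟩ := exists_isUnif F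
  have h1 : ‖π‖ ^ e = (q : ℝ)⁻¹ :=
    hπ ⟨π, hπF⟩ hπ1 (fun x hx => hπmax x x.2 hx)
  have h2 := norm_unif_pow_ramIdx F (π := π) ⟨hπF, hπ0, hπ1, hπmax⟩
  have h3 : e = ramIdx F :=
    pow_right_injective₀ (norm_pos_iff.2 hπ0) hπ1.ne (h1.trans h2.symm)
  have h4 : f = resDeg F := by
    have h5 : QF F = q ^ f := hf
    rw [QF_eq] at h5
    exact (Nat.pow_right_injective (Fact.out : q.Prime).two_le h5).symm
  rw [← h3, ← h4, hef]

theorem Res_norm_pow_sub_pow_lt {a b : Om q} (ha : ‖a‖ ≤ 1) (hb : ‖b‖ ≤ 1) (h : ‖a - b‖ < 1)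
    (n : ℕ) : ‖a ^ n - b ^ n‖ < 1 := by
  induction n with
  | zero => simp
  | succ n ih =>
    have h1 : a ^ (n + 1) - b ^ (n + 1) = a ^ n * (a - b) + (a ^ n - b ^ n) * b := by ring
    rw [h1]
    refine lt_of_le_of_lt (IsUltrametricDist.norm_add_le_max _ _) (max_lt ?_ ?_)
    · rw [norm_mul, norm_pow]
      calc ‖a‖ ^ n * ‖a - b‖ ≤ 1 * ‖a - b‖ := by
            gcongr
            exact pow_le_one₀ (norm_nonneg _) ha
        _ < 1 := by rwa [one_mul]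
    · rw [norm_mul]
      calc ‖a ^ n - b ^ n‖ * ‖b‖ ≤ ‖a ^ n - b ^ n‖ * 1 := by gcongr
        _ < 1 := by rwa [mul_one]

/-- `k_F ⊆ k_E` : `f_F ∣ f_E`. -/
theorem resDeg_dvd_of_le (E : LF q) [FiniteDimensional ℚ_[q] E] (h : F ≤ E) :
    resDeg F ∣ resDeg E := by
  have hqp : q.Prime := Fact.out
  have hQF := one_lt_QF F
  have hQE := one_lt_QF E
  obtain ⟨ζ, hζ⟩ := exists_primitiveRoot (q := q) (QF F - 1) (by omega)
  have hζ1 : ζ ^ (QF F - 1) = 1 := hζ.pow_eq_one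
  have hζQ : ζ ^ QF F = ζ := by
    have : QF F = (QF F - 1) + 1 := by omega
    rw [this, pow_succ, hζ1, one_mul]
  have hn1 : ‖ζ‖ = 1 := norm_eq_one_of_pow_eq_one (by omega) hζ1
  obtain ⟨x, hxF, hx1, hx⟩ := exists_mem_of_norm_pow_QF_sub_lt F hn1.le
    (by rw [hζQ, sub_self, norm_zero]; exact one_pos)
  have h2 : ‖x ^ QF E - x‖ < 1 := norm_pow_QF_sub_lt (h hxF) hx1
  have h3 : ‖ζ ^ QF E - x ^ QF E‖ < 1 := Res_norm_pow_sub_pow_lt hn1.le hx1 hx _
  have h4 : ‖ζ ^ QF E - ζ‖ < 1 := by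
    have h5 : ζ ^ QF E - ζ = (ζ ^ QF E - x ^ QF E) + ((x ^ QF E - x) + (x - ζ)) := by ring
    rw [h5]
    refine lt_of_le_of_lt (IsUltrametricDist.norm_add_le_max _ _) (max_lt h3 ?_)
    refine lt_of_le_of_lt (IsUltrametricDist.norm_add_le_max _ _) (max_lt h2 ?_)
    rwa [norm_sub_rev]
  have hnd : ¬ q ∣ QF F - 1 := by
    intro hd
    have h6 : q ∣ QF F := by
      rw [QF_eq]
      exact dvd_pow_self _ (resDeg_ne_zero F)
    have h7 : q ∣ 1 := by
      have := (Nat.dvd_sub h6 hd)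
      rwa [show QF F - (QF F - 1) = 1 by omega] at this
    exact hqp.one_lt.ne' (Nat.dvd_one.1 h7)
  have h8 : ζ ^ QF E = ζ :=
    eq_of_norm_sub_lt_one hnd (by rw [← pow_mul, mul_comm, pow_mul, hζ1, one_pow]) hζ1 h4
  have hζ0 : ζ ≠ 0 := by
    intro h0
    rw [h0, norm_zero] at hn1
    exact zero_ne_one hn1
  have h9 : ζ ^ (QF E - 1) = 1 := by
    have h10 : QF E = (QF E - 1) + 1 := by omega
    rw [h10, pow_succ] at h8
    exact mul_right_cancel₀ hζ0 (by rw [h8, one_mul])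
  have h11 : QF F - 1 ∣ QF E - 1 := hζ.dvd_of_pow_eq_one _ h9
  rw [QF_eq F, QF_eq E] at h11
  have h12 : q ^ resDeg E ≡ q ^ 0 [MOD q ^ resDeg F - 1] := by
    rw [pow_zero]
    exact ((Nat.modEq_iff_dvd' (Nat.one_le_pow _ _ hqp.pos)).2 h11).symm
  have h13 := (pow_modEq_pow_iff hqp.two_le (resDeg_ne_zero F) _ _).1 h12
  exact (Nat.modEq_zero_iff_dvd).1 h13

end Fermat.Agent.S55.LOC
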